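import Mathlib

set_option autoImplicit false

/-!
# Normalised elliptic divisibility sequences are elliptic nets
-/

namespace Fermat.Agent.Torsion

open IsEllipticNet

section Relations

variable {R : Type*} [CommRing R]

/-- all same-parity elliptic relators with entries bounded by `N` vanish -/
def RelUpTo (W : ℤ → R) (N : ℤ) : Prop :=
  ∀ a b c d : ℤ, |a| ≤ N → |b| ≤ N → |c| ≤ N → |d| ≤ N →
    (d % 2 = a % 2 ∧ d % 2 = b % 2 ∧ d % 2 = c % 2) → atomRel W a b c d = 0

variable {W : ℤ → R}

lemma atomRel_swap₁₂ (odd : W.Odd) (a b c d : ℤ) :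
    atomRel W b a c d = - atomRel W a b c d := by
  simp only [atomRel]
  linear_combination (-(atom W c d)) * neg_atom odd a b

lemma atomRel_swap₂₃ (odd : W.Odd) (a b c d : ℤ) :
    atomRel W a c b d = - atomRel W a b c d := by
  simp only [atomRel]
  linear_combination (-(atom W a d)) * neg_atom odd b c

lemma atomRel_swap₃₄ (odd : W.Odd) (a b c d : ℤ) :
    atomRel W a b d c = - atomRel W a b c d := by
  simp only [atomRel]
  linear_combination (-(atom W a b)) * neg_atom odd c d

lemma atomRel_eq_zero_of_not_distinct (odd : W.Odd) (zero : W 0 = 0) {a b c d : ℤ}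
    (h : a = b ∨ a = c ∨ a = d ∨ b = c ∨ b = d ∨ c = d) : atomRel W a b c d = 0 := by
  rcases h with rfl | rfl | rfl | rfl | rfl | rfl
  · simp [zero]
  · rw [atomRel_same₁₃ odd]; simp [zero]
  · rw [atomRel_same₁₄ odd]; simp [zero]
  · simp [zero]
  · rw [atomRel_same₂₄ odd]; simp [zero]
  · simp [zero]

/-- Plücker-type identity in rank two -/
lemma plucker (W : ℤ → R) (a b c d e f : ℤ) :
    atomRel W a b c d * atom W e f =
      atomRel W a b e f * atom W c d - atomRel W a c e f * atom W b d
        + atomRel W a d e f * atom W b c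
        + atom W a e * atomRel W b c d f - atom W a f * atomRel W b c d e := by
  simp only [atomRel]
  ring

/-- The inductive step, with the first entry being the new maximum. -/
lemma relUpTo_step_aux [IsDomain R] (one : W 1 = 1)
    (two : W 2 ≠ 0)
    (heven : ∀ m : ℤ, rel W (m + 1) (m - 1) 1 0 = 0)
    (hodd : ∀ m : ℤ, rel W (m + 1) m 1 0 = 0) {N : ℤ} (hN : 3 ≤ N) (ih : RelUpTo W N)
    {b c d : ℤ} (hb0 : 0 ≤ b) (hb : b ≤ N) (hc0 : 0 ≤ c) (hc : c ≤ N) (hd0 : 0 ≤ d) (hd : d ≤ N)
    (parity : d % 2 = (N + 1) % 2 ∧ d % 2 = b % 2 ∧ d % 2 = c % 2) :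
    atomRel W (N + 1) b c d = 0 := by
  obtain ⟨p1, p2, p3⟩ := parity
  rcases Int.even_or_odd' N with ⟨m, hm | hm⟩
  · -- `N + 1` odd
    have key : ∀ x : ℤ, 0 ≤ x → x ≤ N → x % 2 = 1 → atomRel W (N + 1) x 3 1 = 0 := by
      intro x hx0 hx hx1
      by_cases hx2 : x = N - 1
      · have hrel := heven m
        rw [rel_even, one] at hrel
        have a1 : atom W (2 * m + 1) (2 * m - 1) = W (2 * m) * W 1 := by
          have := atom_odd W m (m - 1)
          rw [show 2 * (m - 1) + 1 = 2 * m - 1 by ring, show m + (m - 1) + 1 = 2 * m by ring,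
            show m - (m - 1) = 1 by ring] at this
          exact this
        have a2 : atom W (2 * m + 1) 3 = W (m + 2) * W (m - 1) := by
          have := atom_odd W m 1
          rw [show (2 * 1 + 1 : ℤ) = 3 by norm_num, show m + 1 + 1 = m + 2 by ring] at this
          exact this
        have a3 : atom W (2 * m + 1) 1 = W (m + 1) * W m := by
          have := atom_odd W m 0
          rw [show (2 * 0 + 1 : ℤ) = 1 by norm_num, add_zero, sub_zero] at this
          exact this
        have a4 : atom W (2 * m - 1) 3 = W (m + 1) * W (m - 2) := by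
          have := atom_odd W (m - 1) 1
          rw [show (2 * 1 + 1 : ℤ) = 3 by norm_num, show m - 1 + 1 + 1 = m + 1 by ring,
            show 2 * (m - 1) + 1 = 2 * m - 1 by ring, show m - 1 - 1 = m - 2 by ring] at this
          exact this
        have a5 : atom W (2 * m - 1) 1 = W m * W (m - 1) := by
          have := atom_odd W (m - 1) 0
          rw [show (2 * 0 + 1 : ℤ) = 1 by norm_num, add_zero, sub_zero,
            show 2 * (m - 1) + 1 = 2 * m - 1 by ring, show m - 1 + 1 = m by ring] at this
          exact this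
        have a6 : atom W 3 1 = W 2 * W 1 := by
          have := atom_odd W 1 0
          norm_num at this
          exact this
        rw [hx2, hm, atomRel, a1, a2, a3, a4, a5, a6, one]
        linear_combination hrel
      · rw [← atomRel_avg_sub W (by omega)]
        apply ih
        · rw [abs_le]; constructor <;> omega
        · rw [abs_le]; constructor <;> omega
        · rw [abs_le]; constructor <;> omega
        · rw [abs_le]; constructor <;> omega
        · omega
    have h31 : atom W 3 1 = W 2 := by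
      have := atom_odd W 1 0
      norm_num at this
      rw [this, one, mul_one]
    have hpl := plucker W (N + 1) b c d 3 1
    rw [key b hb0 hb (by omega), key c hc0 hc (by omega), key d hd0 hd (by omega), h31,
      ih b c d 1 (by rw [abs_le]; constructor <;> omega) (by rw [abs_le]; constructor <;> omega)
        (by rw [abs_le]; constructor <;> omega) (by rw [abs_le]; constructor <;> omega)
        (by omega),
      ih b c d 3 (by rw [abs_le]; constructor <;> omega) (by rw [abs_le]; constructor <;> omega)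
        (by rw [abs_le]; constructor <;> omega) (by rw [abs_le]; constructor <;> omega)
        (by omega)] at hpl
    have : atomRel W (N + 1) b c d * W 2 = 0 := by rw [hpl]; ring
    exact (mul_eq_zero.mp this).resolve_right two
  · -- `N + 1` even
    have key : ∀ x : ℤ, 0 ≤ x → x ≤ N → x % 2 = 0 → atomRel W (N + 1) x 2 0 = 0 := by
      intro x hx0 hx hx1
      by_cases hx2 : x = N - 1
      · have hrel := hodd m
        have := atomRel_two_mul W (m + 1) m 1 0
        simp only [sub_zero, mul_zero] at this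
        rw [hrel] at this
        rw [hx2, hm]
        convert this using 2 <;> ring
      · rw [← atomRel_avg_sub W (by omega)]
        apply ih
        · rw [abs_le]; constructor <;> omega
        · rw [abs_le]; constructor <;> omega
        · rw [abs_le]; constructor <;> omega
        · rw [abs_le]; constructor <;> omega
        · omega
    have h20 : atom W 2 0 = 1 := by
      have := atom_even W 1 0
      norm_num at this
      rw [this, one, mul_one]
    have hpl := plucker W (N + 1) b c d 2 0
    rw [key b hb0 hb (by omega), key c hc0 hc (by omega), key d hd0 hd (by omega), h20,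
      ih b c d 0 (by rw [abs_le]; constructor <;> omega) (by rw [abs_le]; constructor <;> omega)
        (by rw [abs_le]; constructor <;> omega) (by rw [abs_le]; constructor <;> omega)
        (by omega),
      ih b c d 2 (by rw [abs_le]; constructor <;> omega) (by rw [abs_le]; constructor <;> omega)
        (by rw [abs_le]; constructor <;> omega) (by rw [abs_le]; constructor <;> omega)
        (by omega)] at hpl
    linear_combination hpl

lemma relUpTo_of_nonneg (odd : W.Odd) {N : ℤ}
    (h : ∀ a b c d : ℤ, 0 ≤ a → 0 ≤ b → 0 ≤ c → 0 ≤ d → a ≤ N → b ≤ N → c ≤ N → d ≤ N →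
      (d % 2 = a % 2 ∧ d % 2 = b % 2 ∧ d % 2 = c % 2) → atomRel W a b c d = 0) :
    RelUpTo W N := by
  intro a b c d ha hb hc hd parity
  rw [← atomRel_abs₁ odd, ← atomRel_abs₂ odd, ← atomRel_abs₃ odd, ← atomRel_abs₄]
  have ha2 : |a| % 2 = a % 2 := by rcases abs_choice a with h | h <;> omega
  have hb2 : |b| % 2 = b % 2 := by rcases abs_choice b with h | h <;> omega
  have hc2 : |c| % 2 = c % 2 := by rcases abs_choice c with h | h <;> omega
  have hd2 : |d| % 2 = d % 2 := by rcases abs_choice d with h | h <;> omega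
  apply h _ _ _ _ (abs_nonneg a) (abs_nonneg b) (abs_nonneg c) (abs_nonneg d) ha hb hc hd
  rw [ha2, hb2, hc2, hd2]
  exact parity

lemma relUpTo_three (odd : W.Odd) (zero : W 0 = 0) : RelUpTo W 3 := by
  apply relUpTo_of_nonneg odd
  intro a b c d ha0 hb0 hc0 hd0 ha hb hc hd parity
  apply atomRel_eq_zero_of_not_distinct odd zero
  omega

lemma relUpTo_succ [IsDomain R] (odd : W.Odd) (zero : W 0 = 0) (one : W 1 = 1)
    (two : W 2 ≠ 0)
    (heven : ∀ m : ℤ, rel W (m + 1) (m - 1) 1 0 = 0)
    (hodd : ∀ m : ℤ, rel W (m + 1) m 1 0 = 0) {N : ℤ} (hN : 3 ≤ N) (ih : RelUpTo W N) :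
    RelUpTo W (N + 1) := by
  apply relUpTo_of_nonneg odd
  intro a b c d ha0 hb0 hc0 hd0 ha hb hc hd parity
  by_cases hdist : a = b ∨ a = c ∨ a = d ∨ b = c ∨ b = d ∨ c = d
  · exact atomRel_eq_zero_of_not_distinct odd zero hdist
  by_cases h1 : a = N + 1
  · rw [h1]
    exact relUpTo_step_aux one two heven hodd hN ih hb0 (by omega) hc0 (by omega) hd0
      (by omega) (by omega)
  by_cases h2 : b = N + 1
  · rw [← neg_eq_zero, ← atomRel_swap₁₂ odd, h2]
    exact relUpTo_step_aux one two heven hodd hN ih ha0 (by omega) hc0 (by omega) hd0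
      (by omega) (by omega)
  by_cases h3 : c = N + 1
  · rw [← neg_eq_zero, ← atomRel_swap₂₃ odd, ← neg_eq_zero, ← atomRel_swap₁₂ odd, h3]
    exact relUpTo_step_aux one two heven hodd hN ih ha0 (by omega) hb0 (by omega) hd0
      (by omega) (by omega)
  by_cases h4 : d = N + 1
  · rw [← neg_eq_zero, ← atomRel_swap₃₄ odd, ← neg_eq_zero, ← atomRel_swap₂₃ odd, ← neg_eq_zero,
      ← atomRel_swap₁₂ odd, h4]
    exact relUpTo_step_aux one two heven hodd hN ih ha0 (by omega) hb0 (by omega) hc0
      (by omega) (by omega)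
  exact ih _ _ _ _ (by rw [abs_le]; constructor <;> omega) (by rw [abs_le]; constructor <;> omega)
    (by rw [abs_le]; constructor <;> omega) (by rw [abs_le]; constructor <;> omega) parity

theorem isEllipticNet_of_even_odd [IsDomain R] (odd : W.Odd) (zero : W 0 = 0) (one : W 1 = 1)
    (two : W 2 ≠ 0)
    (heven : ∀ m : ℤ, rel W (m + 1) (m - 1) 1 0 = 0)
    (hodd : ∀ m : ℤ, rel W (m + 1) m 1 0 = 0) : IsEllipticNet W := by
  have key : ∀ n : ℕ, RelUpTo W (3 + n) := by
    intro n
    induction n with
    | zero => simpa using relUpTo_three odd zero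
    | succ n ih =>
      have := relUpTo_succ odd zero one two heven hodd (by omega) ih
      push_cast
      rwa [← add_assoc]
  intro p q r s
  rw [rel_eq]
  obtain ⟨n, hn⟩ : ∃ n : ℕ, |2 * p + s| ≤ 3 + n ∧ |2 * q + s| ≤ 3 + n ∧ |2 * r + s| ≤ 3 + n ∧
      |s| ≤ 3 + n := by
    refine ⟨(|2 * p + s| + |2 * q + s| + |2 * r + s| + |s|).toNat, ?_⟩
    have ha0 := abs_nonneg (2 * p + s)
    have hb0 := abs_nonneg (2 * q + s)
    have hc0 := abs_nonneg (2 * r + s)
    have hd0 := abs_nonneg s
    omega
  exact key n _ _ _ _ hn.1 hn.2.1 hn.2.2.1 hn.2.2.2 (by omega)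

end Relations

section NormEDS

lemma normEDS_odd_fun {R : Type*} [CommRing R] (b c d : R) : (normEDS b c d).Odd :=
  fun n => normEDS_neg b c d n

open MvPolynomial in
/-- the universal normalised EDS is a net -/
lemma normEDS_net_universal :
    IsEllipticNet (normEDS (X 0 : MvPolynomial (Fin 3) ℤ) (X 1) (X 2)) := by
  refine isEllipticNet_of_even_odd (normEDS_odd_fun _ _ _) (normEDS_zero _ _ _)
    (normEDS_one _ _ _) ?_ ?_ ?_
  · rw [normEDS_two]
    exact X_ne_zero 0
  · intro m
    rw [rel_even, normEDS_two, normEDS_one]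
    linear_combination normEDS_even (X 0 : MvPolynomial (Fin 3) ℤ) (X 1) (X 2) m
  · intro m
    rw [rel_odd, normEDS_one]
    linear_combination normEDS_odd (X 0 : MvPolynomial (Fin 3) ℤ) (X 1) (X 2) m

theorem normEDS_net {R : Type*} [CommRing R] (b c d : R) : IsEllipticNet (normEDS b c d) := by
  intro p q r s
  have h := normEDS_net_universal p q r s
  have h2 := congrArg (MvPolynomial.eval₂Hom (Int.castRingHom R) ![b, c, d]) h
  rw [IsEllipticNet.map_rel, map_zero] at h2
  convert h2 using 2
  ext n
  rw [Function.comp_apply, map_normEDS]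
  simp

/-- Somos-4 relation -/
theorem normEDS_somos {R : Type*} [CommRing R] (b c d : R) (m : ℤ) :
    normEDS b c d (m + 2) * normEDS b c d (m - 2) =
      b ^ 2 * (normEDS b c d (m + 1) * normEDS b c d (m - 1)) - c * normEDS b c d m ^ 2 := by
  have h := normEDS_net b c d m 2 1 0
  rw [rel] at h
  simp only [add_zero, normEDS_one, normEDS_two] at h
  norm_num at h
  linear_combination h

/-- The general elliptic sequence relation in the `(m, n)` form. -/
theorem normEDS_add_mul_sub {R : Type*} [CommRing R] (b c d : R) (m n : ℤ) :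
    normEDS b c d (m + n) * normEDS b c d (m - n) =
      normEDS b c d (m + 1) * normEDS b c d (m - 1) * normEDS b c d n ^ 2
        - normEDS b c d (n + 1) * normEDS b c d (n - 1) * normEDS b c d m ^ 2 := by
  have h := normEDS_net b c d m n 1 0
  rw [rel] at h
  simp only [add_zero, normEDS_one] at h
  linear_combination h

/-- `normEDS 2 3 2` is the identity sequence. -/
lemma normEDS_two_three_two_nat (n : ℕ) : normEDS (2 : ℤ) 3 2 n = n := by
  induction n using normEDSRec' with
  | zero => simp
  | one => simp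
  | two => simp
  | three => simp
  | four => simp
  | even m ih =>
    have h1 := ih (m + 1) (by omega)
    have h2 := ih (m + 2) (by omega)
    have h3 := ih (m + 3) (by omega)
    have h4 := ih (m + 4) (by omega)
    have h5 := ih (m + 5) (by omega)
    have h := normEDS_even (2 : ℤ) 3 2 (m + 3)
    have e1 : (m : ℤ) + 3 - 1 = ((m + 2 : ℕ) : ℤ) := by push_cast; ring
    have e2 : (m : ℤ) + 3 - 2 = ((m + 1 : ℕ) : ℤ) := by push_cast; ring
    have e3 : (m : ℤ) + 3 = ((m + 3 : ℕ) : ℤ) := by push_cast; ring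
    have e4 : (m : ℤ) + 3 + 2 = ((m + 5 : ℕ) : ℤ) := by push_cast; ring
    have e5 : (m : ℤ) + 3 + 1 = ((m + 4 : ℕ) : ℤ) := by push_cast; ring
    rw [e4, e5, e1, e2, e3, h1, h2, h3, h4, h5] at h
    have e6 : ((2 * (m + 3) : ℕ) : ℤ) = 2 * ((m + 3 : ℕ) : ℤ) := by push_cast; ring
    rw [e6]
    have h6 : normEDS (2 : ℤ) 3 2 (2 * ((m + 3 : ℕ) : ℤ)) * 2 = (2 * ((m + 3 : ℕ) : ℤ)) * 2 := by
      rw [h]; push_cast; ring
    exact mul_right_cancel₀ two_ne_zero h6
  | odd m ih =>
    have h1 := ih (m + 1) (by omega)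
    have h2 := ih (m + 2) (by omega)
    have h3 := ih (m + 3) (by omega)
    have h4 := ih (m + 4) (by omega)
    have h := normEDS_odd (2 : ℤ) 3 2 (m + 2)
    have e1 : (m : ℤ) + 2 - 1 = ((m + 1 : ℕ) : ℤ) := by push_cast; ring
    have e3 : (m : ℤ) + 2 = ((m + 2 : ℕ) : ℤ) := by push_cast; ring
    have e4 : (m : ℤ) + 2 + 2 = ((m + 4 : ℕ) : ℤ) := by push_cast; ring
    have e5 : (m : ℤ) + 2 + 1 = ((m + 3 : ℕ) : ℤ) := by push_cast; ring
    rw [e4, e5, e1, e3, h1, h2, h3, h4] at h
    have e6 : ((2 * (m + 2) + 1 : ℕ) : ℤ) = 2 * ((m + 2 : ℕ) : ℤ) + 1 := by push_cast; ring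
    rw [e6, h]
    push_cast
    ring

lemma normEDS_two_three_two (n : ℤ) : normEDS (2 : ℤ) 3 2 n = n := by
  obtain ⟨m, rfl | rfl⟩ := Int.eq_nat_or_neg n
  · exact normEDS_two_three_two_nat m
  · rw [normEDS_neg, normEDS_two_three_two_nat]

/-- the "numerator" of the first integral -/
def integralNum {R : Type*} [CommRing R] (b c d : R) (n : ℤ) : R :=
  normEDS b c d (n + 2) * normEDS b c d (n - 1) ^ 2 +
    normEDS b c d (n - 2) * normEDS b c d (n + 1) ^ 2 + b ^ 2 * normEDS b c d n ^ 3

lemma integralNum_step {R : Type*} [CommRing R] (b c d : R) (n : ℤ) :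
    integralNum b c d n * normEDS b c d (n + 2) =
      integralNum b c d (n + 1) * normEDS b c d (n - 1) := by
  have h1 := normEDS_somos b c d n
  have h2 := normEDS_somos b c d (n + 1)
  rw [show n + 1 + 2 = n + 3 by ring, show n + 1 - 2 = n - 1 by ring,
    show n + 1 + 1 = n + 2 by ring, show n + 1 - 1 = n by ring] at h2
  simp only [integralNum]
  rw [show n + 1 + 2 = n + 3 by ring, show n + 1 - 2 = n - 1 by ring,
    show n + 1 + 1 = n + 2 by ring, show n + 1 - 1 = n by ring]
  linear_combination normEDS b c d (n + 1) ^ 2 * h1 - normEDS b c d n ^ 2 * h2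

open MvPolynomial in
lemma normEDS_integral_universal (n : ℕ) :
    integralNum (X 0 : MvPolynomial (Fin 3) ℤ) (X 1) (X 1 * X 2 - X 0 ^ 4) (n + 1) =
      X 2 * (normEDS (X 0 : MvPolynomial (Fin 3) ℤ) (X 1) (X 1 * X 2 - X 0 ^ 4) n *
        normEDS (X 0 : MvPolynomial (Fin 3) ℤ) (X 1) (X 1 * X 2 - X 0 ^ 4) (n + 1) *
        normEDS (X 0 : MvPolynomial (Fin 3) ℤ) (X 1) (X 1 * X 2 - X 0 ^ 4) (n + 2)) := by
  have hne : ∀ k : ℤ, k ≠ 0 →
      normEDS (X 0 : MvPolynomial (Fin 3) ℤ) (X 1) (X 1 * X 2 - X 0 ^ 4) k ≠ 0 := by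
    intro k hk h
    have h2 := congrArg (MvPolynomial.eval₂Hom (Int.castRingHom ℤ) ![2, 3, 6]) h
    rw [map_normEDS, map_zero] at h2
    have h3 : normEDS (2 : ℤ) 3 2 k = 0 := by
      convert h2 using 2 <;> simp
    rw [normEDS_two_three_two] at h3
    exact hk h3
  induction n with
  | zero =>
    simp only [integralNum, Nat.cast_zero, zero_add]
    rw [show (1 : ℤ) + 2 = 3 by norm_num, show (1 : ℤ) - 1 = 0 by norm_num,
      show (1 : ℤ) - 2 = -1 by norm_num, show (1 : ℤ) + 1 = 2 by norm_num]
    simp only [normEDS_neg, normEDS_zero, normEDS_one, normEDS_two]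
    ring
  | succ n ih =>
    by_cases hn : n = 0
    · subst hn
      simp only [integralNum, zero_add, Nat.cast_one]
      rw [show (1 : ℤ) + 1 + 2 = 4 by norm_num, show (1 : ℤ) + 1 - 1 = 1 by norm_num,
        show (1 : ℤ) + 1 - 2 = 0 by norm_num, show (1 : ℤ) + 1 + 1 = 3 by norm_num,
        show (1 : ℤ) + 1 = 2 by norm_num, show (1 : ℤ) + 2 = 3 by norm_num]
      simp only [normEDS_zero, normEDS_one, normEDS_two, normEDS_three, normEDS_four]
      ring
    · have hstep := integralNum_step (X 0 : MvPolynomial (Fin 3) ℤ) (X 1)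
        (X 1 * X 2 - X 0 ^ 4) (n + 1)
      rw [ih] at hstep
      rw [show (n : ℤ) + 1 - 1 = n by ring] at hstep
      push_cast
      apply mul_right_cancel₀ (hne n (by exact_mod_cast hn))
      rw [← hstep]
      rw [show (n : ℤ) + 1 + 2 = n + 3 by ring, show (n : ℤ) + 1 + 1 = n + 2 by ring]
      ring

/-- The first integral of the Somos-4 recursion, for natural indices. -/
theorem normEDS_integral_nat {R : Type*} [CommRing R] {b c d I : R} (hI : c * I = d + b ^ 4)
    (n : ℕ) :
    integralNum b c d (n + 1) =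
      I * (normEDS b c d n * normEDS b c d (n + 1) * normEDS b c d (n + 2)) := by
  have h := normEDS_integral_universal n
  have h2 := congrArg (MvPolynomial.eval₂Hom (Int.castRingHom R) ![b, c, I]) h
  have hd : d = c * I - b ^ 4 := by rw [hI]; ring
  simp only [integralNum, map_add, map_mul, map_pow, map_normEDS] at h2
  simp only [integralNum]
  subst hd
  convert h2 using 2 <;> simp

end NormEDS

end Fermat.Agent.Torsion
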