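import Mathlib
import Fermat.Agent.Torsion.EDS

set_option autoImplicit false

/-!
# The multiplication-by-`n` formula on a Weierstrass curve over a field
-/

namespace Fermat.Agent.Torsion

open WeierstrassCurve WeierstrassCurve.Affine WeierstrassCurve.Affine.Point

variable {K : Type*} [Field K]

/-- the values `ψ_n(x, y)` of the division polynomials -/
noncomputable def psiVal (W : WeierstrassCurve K) (x y : K) (n : ℤ) : K :=
  normEDS (2 * y + W.a₁ * x + W.a₃) (W.Ψ₃.eval x) (W.preΨ₄.eval x) n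

lemma eval_Ψ₃ (W : WeierstrassCurve K) (x : K) :
    W.Ψ₃.eval x = 3 * x ^ 4 + W.b₂ * x ^ 3 + 3 * W.b₄ * x ^ 2 + 3 * W.b₆ * x + W.b₈ := by
  simp [WeierstrassCurve.Ψ₃]

lemma eval_preΨ₄ (W : WeierstrassCurve K) (x : K) :
    W.preΨ₄.eval x = 2 * x ^ 6 + W.b₂ * x ^ 5 + 5 * W.b₄ * x ^ 4 + 10 * W.b₆ * x ^ 3 +
      10 * W.b₈ * x ^ 2 + (W.b₂ * W.b₈ - W.b₄ * W.b₆) * x + (W.b₄ * W.b₈ - W.b₆ ^ 2) := by
  simp [WeierstrassCurve.preΨ₄]

lemma eval_Ψ₂Sq (W : WeierstrassCurve K) (x : K) :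
    W.Ψ₂Sq.eval x = 4 * x ^ 3 + W.b₂ * x ^ 2 + 2 * W.b₄ * x + W.b₆ := by
  simp [WeierstrassCurve.Ψ₂Sq]

variable {W : WeierstrassCurve K}

lemma psi2_sq {x y : K} (h : W.toAffine.Equation x y) :
    (2 * y + W.a₁ * x + W.a₃) ^ 2 = W.Ψ₂Sq.eval x := by
  rw [Affine.equation_iff] at h
  rw [eval_Ψ₂Sq, WeierstrassCurve.b₂, WeierstrassCurve.b₄, WeierstrassCurve.b₆]
  linear_combination 4 * h

lemma hI {x y : K} (h : W.toAffine.Equation x y) :
    W.Ψ₃.eval x * (6 * x ^ 2 + W.b₂ * x + W.b₄) =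
      W.preΨ₄.eval x + (2 * y + W.a₁ * x + W.a₃) ^ 4 := by
  have h2 := psi2_sq h
  have h4 : (2 * y + W.a₁ * x + W.a₃) ^ 4 = (W.Ψ₂Sq.eval x) ^ 2 := by rw [← h2]; ring
  rw [h4, eval_Ψ₃, eval_preΨ₄, eval_Ψ₂Sq]
  simp only [WeierstrassCurve.b₂, WeierstrassCurve.b₄, WeierstrassCurve.b₆, WeierstrassCurve.b₈]
  ring

/-- the key identity relating `Ψ₃`, `W_X`, `W_Y` -/
lemma psi3_identity {x y : K} (heq : W.toAffine.Equation x y) :
    W.Ψ₃.eval x = (W.a₂ + 3 * x) * (2 * y + W.a₁ * x + W.a₃) ^ 2 +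
      W.a₁ * (W.a₁ * y - (3 * x ^ 2 + 2 * W.a₂ * x + W.a₄)) * (2 * y + W.a₁ * x + W.a₃)
      - (W.a₁ * y - (3 * x ^ 2 + 2 * W.a₂ * x + W.a₄)) ^ 2 := by
  rw [Affine.equation_iff] at heq
  rw [eval_Ψ₃]
  simp only [WeierstrassCurve.b₂, WeierstrassCurve.b₄, WeierstrassCurve.b₆,
    WeierstrassCurve.b₈]
  linear_combination -(W.a₁ ^ 2 + 4 * W.a₂ + 12 * x) * heq

/-- `ψ₂(x,y) = 0` and `Ψ₃(x) = 0` cannot both happen at a nonsingular point -/
lemma not_psi2_psi3 {x y : K} (h : W.toAffine.Nonsingular x y)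
    (hb : 2 * y + W.a₁ * x + W.a₃ = 0) (hc : W.Ψ₃.eval x = 0) : False := by
  obtain ⟨heq, hns⟩ := (Affine.nonsingular_iff' _ _).mp h
  rw [psi3_identity heq, hb] at hc
  have hX' : W.a₁ * y - (3 * x ^ 2 + 2 * W.a₂ * x + W.a₄) = 0 := by
    apply (pow_eq_zero_iff (n := 2) (two_ne_zero)).mp
    linear_combination -hc
  rcases hns with h1 | h1
  · exact h1 hX'
  · exact h1 hb

/-- two consecutive division polynomials do not vanish simultaneously at a nonsingular point -/
lemma psiVal_consecutive_nat {x y : K} (h : W.toAffine.Nonsingular x y) (n : ℕ)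
    (h0 : psiVal W x y n = 0) (h1 : psiVal W x y (n + 1) = 0) : False := by
  induction n with
  | zero =>
    simp [psiVal] at h1
  | succ n ih =>
    by_cases hn0 : n = 0
    · subst hn0
      simp [psiVal] at h0
    obtain ⟨k, rfl⟩ := Nat.exists_eq_succ_of_ne_zero hn0
    have h2 : psiVal W x y ((k + 1 : ℕ) : ℤ) ≠ 0 := fun h2 => ih h2 (by exact_mod_cast h0)
    have hs := normEDS_somos (2 * y + W.a₁ * x + W.a₃) (W.Ψ₃.eval x) (W.preΨ₄.eval x)
      ((k : ℤ) + 1)
    have hi := normEDS_integral_nat (hI h.1) k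
    simp only [psiVal, integralNum] at *
    push_cast at *
    rw [show (k : ℤ) + 1 + 2 = k + 1 + 1 + 1 by ring, h1,
      show (k : ℤ) + 1 + 1 = k + 1 + 1 by ring, h0] at hs
    rw [show (k : ℤ) + 1 + 2 = k + 1 + 1 + 1 by ring, h1,
      show (k : ℤ) + 1 + 1 = k + 1 + 1 by ring, h0, show (k : ℤ) + 2 = k + 1 + 1 by ring, h0] at hi
    have hc : W.Ψ₃.eval x = 0 := by
      have : W.Ψ₃.eval x * normEDS (2 * y + W.a₁ * x + W.a₃) (W.Ψ₃.eval x) (W.preΨ₄.eval x)
        ((k : ℤ) + 1) ^ 2 = 0 := by linear_combination hs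
      exact (mul_eq_zero.mp this).resolve_right (pow_ne_zero 2 h2)
    have hb : 2 * y + W.a₁ * x + W.a₃ = 0 := by
      have : (2 * y + W.a₁ * x + W.a₃) ^ 2 *
        normEDS (2 * y + W.a₁ * x + W.a₃) (W.Ψ₃.eval x) (W.preΨ₄.eval x)
        ((k : ℤ) + 1) ^ 3 = 0 := by linear_combination hi
      exact pow_eq_zero_iff two_ne_zero |>.mp
        ((mul_eq_zero.mp this).resolve_right (pow_ne_zero 3 h2))
    exact not_psi2_psi3 h hb hc

/-! ### Addition formulas for `x`-coordinates -/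

variable [DecidableEq K]

/-- sum of the `x`-coordinates of `Q + P` and `Q - P` -/
lemma add_sub_formula {x y x' y' : K} (h : W.toAffine.Nonsingular x y)
    (h' : W.toAffine.Nonsingular x' y') (hx : x' ≠ x) :
    ∃ (u v u' v' : K) (k : W.toAffine.Nonsingular u v) (k' : W.toAffine.Nonsingular u' v'),
      Point.some x' y' h' + Point.some x y h = Point.some u v k ∧
      Point.some x' y' h' - Point.some x y h = Point.some u' v' k' ∧
      (u + u') * (x - x') ^ 2 = 2 * (x + x') * (x * x') + W.b₂ * (x * x') + W.b₄ * (x + x')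
        + W.b₆ := by
  have h2 : W.toAffine.Nonsingular x (W.toAffine.negY x y) := (nonsingular_neg ..).mpr h
  refine ⟨_, _, _, _, nonsingular_add h' h fun hxy => hx hxy.left,
    nonsingular_add h' h2 fun hxy => hx hxy.left, add_of_X_ne hx, ?_, ?_⟩
  · rw [sub_eq_add_neg, neg_some, add_of_X_ne hx]
  · rw [slope_of_X_ne hx, slope_of_X_ne hx]
    have hx2 : x' - x ≠ 0 := sub_ne_zero.mpr hx
    have e1 := (Affine.equation_iff _ _).mp h.1
    have e2 := (Affine.equation_iff _ _).mp h'.1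
    have l1 : (y' - y) / (x' - x) * (x' - x) = y' - y := div_mul_cancel₀ _ hx2
    have l2 : (y' - W.toAffine.negY x y) / (x' - x) * (x' - x) = y' - (-y - W.a₁ * x - W.a₃) :=
      div_mul_cancel₀ _ hx2
    generalize (y' - y) / (x' - x) = L1 at *
    generalize (y' - W.toAffine.negY x y) / (x' - x) = L2 at *
    simp only [addX]
    simp only [WeierstrassCurve.b₂, WeierstrassCurve.b₄, WeierstrassCurve.b₆]
    linear_combination (L1 * (x' - x) + (y' - y) + W.a₁ * (x' - x)) * l1 +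
      (L2 * (x' - x) + (y' - (-y - W.a₁ * x - W.a₃)) + W.a₁ * (x' - x)) * l2 + 2 * e1 + 2 * e2

/-- doubling formula -/
lemma double_formula {x y : K} (h : W.toAffine.Nonsingular x y)
    (hb : 2 * y + W.a₁ * x + W.a₃ ≠ 0) :
    ∃ (u v : K) (k : W.toAffine.Nonsingular u v),
      Point.some x y h + Point.some x y h = Point.some u v k ∧
      u = x - W.Ψ₃.eval x / (2 * y + W.a₁ * x + W.a₃) ^ 2 := by
  have hy : y ≠ W.toAffine.negY x y := by
    intro hy
    apply hb
    simp only [negY] at hy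
    linear_combination hy
  refine ⟨_, _, nonsingular_add h h fun hxy => hy hxy.right, add_self_of_Y_ne hy, ?_⟩
  rw [slope_of_Y_ne rfl hy, psi3_identity h.1]
  simp only [addX, negY]
  have hb2 : y - (-y - W.a₁ * x - W.a₃) = 2 * y + W.a₁ * x + W.a₃ := by ring
  rw [hb2]
  generalize 2 * y + W.a₁ * x + W.a₃ = B at *
  field_simp
  ring

/-- The multiplication formula (statement for a given `n`). -/
def MultFormula (W : WeierstrassCurve K) {x y : K} (h : W.toAffine.Nonsingular x y) (n : ℕ) :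
    Prop :=
  (psiVal W x y n = 0 → (n : ℕ) • Point.some x y h = 0) ∧
  (psiVal W x y n ≠ 0 → ∃ (y' : K) (h' : W.toAffine.Nonsingular
      (x - psiVal W x y (n + 1) * psiVal W x y (n - 1) / psiVal W x y n ^ 2) y'),
      (n : ℕ) • Point.some x y h = Point.some _ y' h')

lemma multFormula_zero {x y : K} (h : W.toAffine.Nonsingular x y) : MultFormula W h 0 := by
  constructor
  · intro _; simp
  · intro h0
    simp [psiVal] at h0

omit [DecidableEq K] in
lemma some_congr_X {x₁ x₂ y₁ : K} {h₁ : W.toAffine.Nonsingular x₁ y₁} (hx : x₁ = x₂) :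
    ∃ h₂ : W.toAffine.Nonsingular x₂ y₁, Point.some x₁ y₁ h₁ = Point.some x₂ y₁ h₂ := by
  subst hx
  exact ⟨h₁, rfl⟩

omit [DecidableEq K] in
lemma some_X_inj {x₁ x₂ y₁ y₂ : K} {h₁ : W.toAffine.Nonsingular x₁ y₁}
    {h₂ : W.toAffine.Nonsingular x₂ y₂} (h : Point.some x₁ y₁ h₁ = Point.some x₂ y₂ h₂) :
    x₁ = x₂ := by
  injection h

lemma multFormula_one {x y : K} (h : W.toAffine.Nonsingular x y) : MultFormula W h 1 := by
  constructor
  · intro h0
    simp [psiVal] at h0
  · intro h0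
    have hx : x = (x - psiVal W x y ((1 : ℕ) + 1) * psiVal W x y ((1 : ℕ) - 1) /
        psiVal W x y (1 : ℕ) ^ 2) := by
      simp [psiVal]
    obtain ⟨h₂, e⟩ := some_congr_X (h₁ := h) hx
    exact ⟨y, h₂, by rw [one_smul]; exact e⟩

lemma multFormula_step {x y : K} (h : W.toAffine.Nonsingular x y) (n : ℕ)
    (ih0 : MultFormula W h n) (ih1 : MultFormula W h (n + 1)) : MultFormula W h (n + 2) := by
  -- notation: `w0 = ψ_n`, `w1 = ψ_{n+1}`, `w2 = ψ_{n+2}`, `w3 = ψ_{n+3}`, `wm = ψ_{n-1}`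
  obtain ⟨ih0a, ih0b⟩ := ih0
  obtain ⟨ih1a, ih1b⟩ := ih1
  have hs := normEDS_somos (2 * y + W.a₁ * x + W.a₃) (W.Ψ₃.eval x) (W.preΨ₄.eval x)
      ((n : ℤ) + 1)
  have hi := normEDS_integral_nat (hI h.1) n
  have hc1 := psiVal_consecutive_nat h n
  have hc2 := psiVal_consecutive_nat h (n + 1)
  have hc0 : psiVal W x y ((n : ℤ) - 1) = 0 → psiVal W x y n = 0 → False := by
    intro h1 h2
    rcases n with _ | n
    · simp [psiVal] at h1
    · refine psiVal_consecutive_nat h n ?_ (by exact_mod_cast h2)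
      rw [← h1]; congr 1; push_cast; ring
  simp only [integralNum] at hi
  have e1 : (n : ℤ) + 1 + 2 = n + 3 := by ring
  have e2 : (n : ℤ) + 1 - 2 = n - 1 := by ring
  have e3 : (n : ℤ) + 1 + 1 = n + 2 := by ring
  have e4 : (n : ℤ) + 1 - 1 = n := by ring
  have e5 : (((n + 1 : ℕ) : ℤ)) = n + 1 := by push_cast; ring
  have e6 : (((n + 2 : ℕ) : ℤ)) = n + 2 := by push_cast; ring
  have e7 : (n : ℤ) + 2 + 1 = n + 3 := by ring
  have e8 : (n : ℤ) + 2 - 1 = n + 1 := by ring
  rw [e1, e2, e3, e4] at hs hi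
  rw [e5, e3] at hc2
  rw [e5, e3, e4] at ih1b
  rw [e5] at ih1a
  unfold MultFormula
  rw [e6, e7, e8]
  change psiVal W x y (n + 3) * psiVal W x y (n - 1) = _ * (psiVal W x y (n + 2) *
    psiVal W x y n) - _ * psiVal W x y (n + 1) ^ 2 at hs
  change psiVal W x y (n + 3) * psiVal W x y n ^ 2 + psiVal W x y (n - 1) *
    psiVal W x y (n + 2) ^ 2 + _ * psiVal W x y (n + 1) ^ 3 = _ * (psiVal W x y n *
      psiVal W x y (n + 1) * psiVal W x y (n + 2)) at hi
  have hsmul : (n + 2) • Point.some x y h = (n + 1) • Point.some x y h + Point.some x y h := by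
    rw [show n + 2 = (n + 1) + 1 from rfl, succ_nsmul]
  have hsmul2 : n • Point.some x y h = (n + 1) • Point.some x y h - Point.some x y h := by
    rw [succ_nsmul, add_sub_cancel_right]
  generalize psiVal W x y (n + 3) = w3 at *
  generalize psiVal W x y (n + 2) = w2 at *
  generalize psiVal W x y (n + 1) = w1 at *
  generalize psiVal W x y n = w0 at *
  generalize psiVal W x y (n - 1) = wm at *
  by_cases hw1 : w1 = 0
  · -- `(n+1) P = 0`
    have hw2 : w2 ≠ 0 := fun hw2 => hc2 hw1 hw2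
    refine ⟨fun hw2' => absurd hw2' hw2, fun _ => ?_⟩
    rw [hsmul, ih1a hw1, zero_add, hw1]
    obtain ⟨h₂, e⟩ := some_congr_X (h₁ := h)
      (show x = x - w3 * 0 / w2 ^ 2 by simp)
    exact ⟨y, h₂, e⟩
  · obtain ⟨y', h', hQ⟩ := ih1b hw1
    rw [hQ] at hsmul hsmul2
    by_cases hw02 : w2 * w0 = 0
    · -- `(n+1) P = ± P`
      obtain ⟨h'', e''⟩ := some_congr_X (h₁ := h') (show x - w2 * w0 / w1 ^ 2 = x by simp [hw02])
      rw [e''] at hsmul hsmul2
      by_cases hw2 : w2 = 0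
      · refine ⟨fun _ => ?_, fun hw2' => absurd hw2 hw2'⟩
        rw [hsmul]
        rcases Y_eq_of_X_eq h''.1 h.1 rfl with hy | hy
        · -- `(n+1)P = P`
          have hnP : n • Point.some x y h = 0 := by
            rw [hsmul2]
            subst hy
            exact sub_self _
          have hw0 : w0 = 0 := by
            by_contra hw0
            obtain ⟨_, _, he⟩ := ih0b hw0
            rw [hnP] at he
            exact some_ne_zero _ he.symm
          have hb : 2 * y + W.a₁ * x + W.a₃ = 0 := by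
            have : (2 * y + W.a₁ * x + W.a₃) ^ 2 * w1 ^ 3 = 0 := by
              rw [hw0, hw2] at hi
              linear_combination hi
            exact pow_eq_zero_iff two_ne_zero |>.mp
              ((mul_eq_zero.mp this).resolve_right (pow_ne_zero 3 hw1))
          refine add_of_Y_eq rfl ?_
          simp only [negY]
          rw [hy]
          linear_combination hb
        · exact add_of_Y_eq rfl hy
      · have hw0 : w0 = 0 := by
          rcases mul_eq_zero.mp hw02 with h1 | h1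
          · exact absurd h1 hw2
          · exact h1
        refine ⟨fun hw2' => absurd hw2' hw2, fun _ => ?_⟩
        have hnP := ih0a hw0
        rw [hsmul2, sub_eq_zero] at hnP
        rw [hsmul, hnP]
        rw [hw0] at hi hs hc0
        have hwm : wm ≠ 0 := fun h1 => hc0 h1 rfl
        have hb : 2 * y + W.a₁ * x + W.a₃ ≠ 0 := by
          intro hb
          rw [hb] at hi
          have : wm * w2 ^ 2 = 0 := by linear_combination hi
          rcases mul_eq_zero.mp this with h1 | h1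
          · exact hwm h1
          · exact hw2 (pow_eq_zero_iff two_ne_zero |>.mp h1)
        obtain ⟨u, v, k, hk, hu⟩ := double_formula h hb
        rw [hk]
        obtain ⟨h₃, e₃⟩ := some_congr_X (h₁ := k) (x₂ := x - w3 * w1 / w2 ^ 2) (by
          rw [hu]
          congr 1
          rw [div_eq_div_iff (pow_ne_zero 2 hb) (pow_ne_zero 2 hw2)]
          -- c * w2^2 = w3 * w1 * b^2
          have key : wm * w1 * (W.Ψ₃.eval x * w2 ^ 2 -
            w3 * w1 * (2 * y + W.a₁ * x + W.a₃) ^ 2) = 0 := by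
            linear_combination W.Ψ₃.eval x * w1 * hi -
              w1 ^ 2 * (2 * y + W.a₁ * x + W.a₃) ^ 2 * hs
          have := (mul_eq_zero.mp key).resolve_left (mul_ne_zero hwm hw1)
          linear_combination this)
        exact ⟨v, h₃, e₃⟩
    · -- generic case
      have hw2 : w2 ≠ 0 := left_ne_zero_of_mul hw02
      have hw0 : w0 ≠ 0 := right_ne_zero_of_mul hw02
      refine ⟨fun hw2' => absurd hw2' hw2, fun _ => ?_⟩
      obtain ⟨y0, h0, hR⟩ := ih0b hw0
      have hne : x - w2 * w0 / w1 ^ 2 ≠ x := by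
        intro he
        have : w2 * w0 / w1 ^ 2 = 0 := by linear_combination -he
        rw [div_eq_zero_iff] at this
        rcases this with h1 | h1
        · exact hw02 h1
        · exact hw1 (pow_eq_zero_iff two_ne_zero |>.mp h1)
      obtain ⟨u, v, u', v', k, k', hk, hk', hsum⟩ := add_sub_formula h h' hne
      rw [hk] at hsmul
      rw [hk', hR] at hsmul2
      have hu' := some_X_inj hsmul2
      rw [hsmul]
      obtain ⟨h₃, e₃⟩ := some_congr_X (h₁ := k) (x₂ := x - w3 * w1 / w2 ^ 2) (by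
        have hb2 := psi2_sq h.1
        rw [eval_Ψ₂Sq] at hb2
        rw [hb2] at hi
        rw [← hu'] at hsum
        have h1 : u = (2 * (x + (x - w2 * w0 / w1 ^ 2)) * (x * (x - w2 * w0 / w1 ^ 2))
          + W.b₂ * (x * (x - w2 * w0 / w1 ^ 2)) + W.b₄ * (x + (x - w2 * w0 / w1 ^ 2))
          + W.b₆) / (x - (x - w2 * w0 / w1 ^ 2)) ^ 2 - (x - w1 * wm / w0 ^ 2) := by
          rw [← hsum]
          have : x - (x - w2 * w0 / w1 ^ 2) ≠ 0 := sub_ne_zero.mpr hne.symm
          field_simp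
          ring
        rw [h1]
        have h2 : x - (x - w2 * w0 / w1 ^ 2) = w2 * w0 / w1 ^ 2 := by ring
        rw [h2]
        field_simp
        linear_combination w1 * hi)
      exact ⟨v, h₃, e₃⟩

/-- **Multiplication formula**: `n P = O` iff `ψ_n(P) = 0`, and otherwise
`x(n P) = x - ψ_{n+1} ψ_{n-1} / ψ_n ^ 2`. -/
theorem multFormula {x y : K} (h : W.toAffine.Nonsingular x y) (n : ℕ) : MultFormula W h n := by
  have key : ∀ n : ℕ, MultFormula W h n ∧ MultFormula W h (n + 1) := by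
    intro n
    induction n with
    | zero => exact ⟨multFormula_zero h, multFormula_one h⟩
    | succ n ih => exact ⟨ih.2, multFormula_step h n ih.1 ih.2⟩
  exact (key n).1

omit [DecidableEq K] in
lemma psiVal_sq {x y : K} (h : W.toAffine.Equation x y) (n : ℤ) :
    psiVal W x y n ^ 2 = (W.ΨSq n).eval x := by
  have h2 := psi2_sq h
  have h4 : (2 * y + W.a₁ * x + W.a₃) ^ 4 = (W.Ψ₂Sq.eval x) ^ 2 := by rw [← h2]; ring
  have hpre : (W.preΨ n).eval x = preNormEDS ((2 * y + W.a₁ * x + W.a₃) ^ 4) (W.Ψ₃.eval x)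
      (W.preΨ₄.eval x) n := by
    rw [WeierstrassCurve.preΨ, ← Polynomial.coe_evalRingHom, map_preNormEDS]
    simp [h4]
  rw [psiVal, normEDS, WeierstrassCurve.ΨSq, ← hpre]
  split_ifs
  · rw [mul_pow, h2, Polynomial.eval_mul, Polynomial.eval_pow]
  · simp

omit [DecidableEq K] in
lemma psiVal_Φ {x y : K} (h : W.toAffine.Equation x y) (n : ℤ) :
    x * psiVal W x y n ^ 2 - psiVal W x y (n + 1) * psiVal W x y (n - 1) = (W.Φ n).eval x := by
  have h2 := psi2_sq h
  have h4 : (2 * y + W.a₁ * x + W.a₃) ^ 4 = (W.Ψ₂Sq.eval x) ^ 2 := by rw [← h2]; ring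
  have hpre : ∀ n : ℤ, (W.preΨ n).eval x = preNormEDS ((2 * y + W.a₁ * x + W.a₃) ^ 4)
      (W.Ψ₃.eval x) (W.preΨ₄.eval x) n := by
    intro n
    rw [WeierstrassCurve.preΨ, ← Polynomial.coe_evalRingHom, map_preNormEDS]
    simp [h4]
  rw [psiVal_sq h, WeierstrassCurve.Φ, psiVal, psiVal, normEDS, normEDS, ← hpre, ← hpre]
  simp only [Int.even_add_one, Int.even_sub_one]
  split_ifs with h5
  · simp
  · rw [Polynomial.eval_sub, Polynomial.eval_mul, Polynomial.eval_mul, Polynomial.eval_mul,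
      Polynomial.eval_X, ← h2]
    ring

/-- `n P = O` iff `ΨSq_n(x(P)) = 0`. -/
theorem nsmul_eq_zero_iff {x y : K} (h : W.toAffine.Nonsingular x y) (n : ℕ) :
    n • Point.some x y h = 0 ↔ (W.ΨSq n).eval x = 0 := by
  rw [← psiVal_sq h.1]
  obtain ⟨ha, hb⟩ := multFormula h n
  constructor
  · intro h0
    by_contra hne
    obtain ⟨y', h', he⟩ := hb (fun h0 => hne (by rw [h0]; ring))
    rw [h0] at he
    exact some_ne_zero _ he.symm
  · intro h0
    exact ha (pow_eq_zero_iff two_ne_zero |>.mp h0)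

/-- if `n P = (x', y')` then `x' * ΨSq_n(x) = Φ_n(x)`. -/
theorem nsmul_X_eq {x y x' y' : K} (h : W.toAffine.Nonsingular x y)
    (h' : W.toAffine.Nonsingular x' y') (n : ℕ)
    (he : n • Point.some x y h = Point.some x' y' h') :
    x' * (W.ΨSq n).eval x = (W.Φ n).eval x := by
  rw [← psiVal_sq h.1, ← psiVal_Φ h.1]
  obtain ⟨ha, hb⟩ := multFormula h n
  have hne : psiVal W x y n ≠ 0 := by
    intro h0
    rw [ha h0] at he
    exact some_ne_zero _ he.symm
  obtain ⟨y'', h'', he'⟩ := hb hne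
  rw [he'] at he
  have := some_X_inj he
  rw [← this]
  field_simp

omit [DecidableEq K] in
/-- `Φ_n` and `ΨSq_n` have no common root at nonsingular points. -/
theorem not_Φ_ΨSq_common_root {x y : K} (h : W.toAffine.Nonsingular x y) (n : ℕ)
    (h1 : (W.ΨSq n).eval x = 0) (h2 : (W.Φ n).eval x = 0) : False := by
  rw [← psiVal_Φ h.1, psiVal_sq h.1, h1] at h2
  rw [← psiVal_sq h.1, pow_eq_zero_iff two_ne_zero] at h1
  have h3 : psiVal W x y (n + 1) * psiVal W x y (n - 1) = 0 := by linear_combination -h2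
  rcases mul_eq_zero.mp h3 with h4 | h4
  · exact psiVal_consecutive_nat h n h1 h4
  · rcases n with _ | n
    · simp [psiVal] at h4
    · refine psiVal_consecutive_nat h n ?_ (by exact_mod_cast h1)
      rw [← h4]; congr 1; push_cast; ring

end Fermat.Agent.Torsion
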