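import Mathlib
import Fermat.Agent.Torsion.Mult

set_option autoImplicit false

/-!
# The number of `n`-torsion points over an algebraically closed field
-/

namespace Fermat.Agent.Torsion

open WeierstrassCurve WeierstrassCurve.Affine WeierstrassCurve.Affine.Point Polynomial

variable {K : Type*} [Field K] [IsAlgClosed K] {W : WeierstrassCurve K}

lemma exists_point_over (hΔ : W.Δ ≠ 0) (x : K) : ∃ y : K, W.toAffine.Nonsingular x y := by
  have hdeg : (X ^ 2 + C (W.a₁ * x + W.a₃) * X -
      C (x ^ 3 + W.a₂ * x ^ 2 + W.a₄ * x + W.a₆) : K[X]).degree ≠ 0 := by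
    have : (X ^ 2 + C (W.a₁ * x + W.a₃) * X -
      C (x ^ 3 + W.a₂ * x ^ 2 + W.a₄ * x + W.a₆) : K[X]) = C 1 * X ^ 2 + C (W.a₁ * x + W.a₃) * X +
      C (-(x ^ 3 + W.a₂ * x ^ 2 + W.a₄ * x + W.a₆)) := by
      rw [C_neg, C_1, one_mul]; ring
    rw [this, degree_quadratic one_ne_zero]
    decide
  obtain ⟨y, hy⟩ := IsAlgClosed.exists_root _ hdeg
  refine ⟨y, (equation_iff_nonsingular_of_Δ_ne_zero hΔ).mp ?_⟩
  rw [Affine.equation_iff]
  simp only [IsRoot.def, eval_sub, eval_add, eval_pow, eval_X, eval_mul, eval_C] at hy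
  linear_combination hy

omit [IsAlgClosed K] in
lemma Ψ₂Sq_ne_zero' (hΔ : W.Δ ≠ 0) : W.Ψ₂Sq ≠ 0 := by
  intro h
  have h3 : W.Ψ₂Sq.coeff 3 = 0 := by rw [h]; simp
  have h2 : W.Ψ₂Sq.coeff 2 = 0 := by rw [h]; simp
  have h1 : W.Ψ₂Sq.coeff 1 = 0 := by rw [h]; simp
  have h0 : W.Ψ₂Sq.coeff 0 = 0 := by rw [h]; simp
  rw [WeierstrassCurve.Ψ₂Sq] at h3 h2 h1 h0
  simp [coeff_X, coeff_C] at h3 h2 h1 h0
  apply hΔ
  rw [WeierstrassCurve.Δ, h2, h0]
  rcases h1 with h1 | h1
  · linear_combination (-4 * W.b₄ ^ 3) * h1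
  · rw [h1]; ring

omit [IsAlgClosed K] in
lemma wronskian_ne_zero {n : ℕ} (hn2 : 2 ≤ n) (hn : (n : K) ≠ 0) :
    derivative (W.Φ n) * W.ΨSq n - W.Φ n * derivative (W.ΨSq n) ≠ 0 := by
  have hN : 4 ≤ n ^ 2 := by nlinarith
  obtain ⟨M, hM⟩ := Nat.exists_eq_add_of_le hN
  have hM' : n ^ 2 = M + 4 := by omega
  have hΦ : (W.Φ n).natDegree ≤ M + 4 := by
    have := W.natDegree_Φ_le n
    rwa [Int.natAbs_natCast, hM'] at this
  have hΦc : (W.Φ n).coeff (M + 4) = 1 := by
    have := W.coeff_Φ n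
    rwa [Int.natAbs_natCast, hM'] at this
  have hΨ : (W.ΨSq n).natDegree ≤ M + 3 := by
    have := W.natDegree_ΨSq_le n
    rwa [Int.natAbs_natCast, hM'] at this
  have hΨc : (W.ΨSq n).coeff (M + 3) = (n : K) ^ 2 := by
    have := W.coeff_ΨSq n
    rw [Int.natAbs_natCast, hM'] at this
    simpa using this
  have hΦ' : (derivative (W.Φ n)).natDegree ≤ M + 3 :=
    (natDegree_derivative_le _).trans (by omega)
  have hΨ' : (derivative (W.ΨSq n)).natDegree ≤ M + 2 :=
    (natDegree_derivative_le _).trans (by omega)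
  intro h
  have hc : (derivative (W.Φ n) * W.ΨSq n - W.Φ n * derivative (W.ΨSq n)).coeff
      ((M + 3) + (M + 3)) = 0 := by rw [h]; simp
  rw [coeff_sub, coeff_mul_add_eq_of_natDegree_le hΦ' hΨ,
    show (M + 3) + (M + 3) = (M + 4) + (M + 2) by ring,
    coeff_mul_add_eq_of_natDegree_le hΦ hΨ', coeff_derivative, coeff_derivative, hΦc, hΨc] at hc
  have h4 : ((M : K) + 4) = (n : K) ^ 2 := by exact_mod_cast congrArg (Nat.cast (R := K)) hM'.symm
  have : (n : K) ^ 2 = 0 := by
    push_cast at hc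
    linear_combination hc
  exact hn (pow_eq_zero_iff two_ne_zero |>.mp this)

/-- the finite set of bad `x`-coordinates -/
lemma exists_good (hΔ : W.Δ ≠ 0) {n : ℕ} (hn2 : 2 ≤ n) (hn : (n : K) ≠ 0) :
    ∃ c : K, W.Ψ₂Sq.eval c ≠ 0 ∧ ∀ r : K, (W.Φ n).eval r = c * (W.ΨSq n).eval r →
      (derivative (W.Φ n)).eval r ≠ c * (derivative (W.ΨSq n)).eval r := by
  classical
  let Wr := derivative (W.Φ n) * W.ΨSq n - W.Φ n * derivative (W.ΨSq n)
  have hWr : Wr ≠ 0 := wronskian_ne_zero hn2 hn
  let bad : Finset K := W.Ψ₂Sq.roots.toFinset ∪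
    Wr.roots.toFinset.image (fun r => (W.Φ n).eval r / (W.ΨSq n).eval r)
  obtain ⟨c, hc⟩ := Infinite.exists_notMem_finset bad
  refine ⟨c, ?_, ?_⟩
  · intro h
    apply hc
    apply Finset.mem_union_left
    rw [Multiset.mem_toFinset, mem_roots (Ψ₂Sq_ne_zero' hΔ)]
    exact h
  · intro r h1 h2
    apply hc
    apply Finset.mem_union_right
    rw [Finset.mem_image]
    refine ⟨r, ?_, ?_⟩
    · rw [Multiset.mem_toFinset, mem_roots hWr]
      simp only [Wr, IsRoot.def, eval_sub, eval_mul]
      rw [h1, h2]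
      ring
    · obtain ⟨y, hy⟩ := exists_point_over hΔ r
      have hne : (W.ΨSq n).eval r ≠ 0 := by
        intro h0
        refine not_Φ_ΨSq_common_root hy n h0 ?_
        rw [h1, h0, mul_zero]
      rw [h1, mul_div_assoc, div_self hne, mul_one]

variable [DecidableEq K]

/-- the fibre of multiplication by `n` over a point -/
lemma card_fiber_eq_card_ker {G : Type*} [AddCommGroup G] (n : ℕ) (P Q : G) (h : n • P = Q) :
    Nat.card {R : G // n • R = Q} = Nat.card {R : G // n • R = 0} := by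
  refine Nat.card_congr
    { toFun := fun R => ⟨R.1 - P, by rw [smul_sub, R.2, h, sub_self]⟩
      invFun := fun R => ⟨R.1 + P, by rw [smul_add, R.2, h, zero_add]⟩
      left_inv := fun R => by ext; simp
      right_inv := fun R => by ext; simp }

lemma surjective_nsmul_aux (hΔ : W.Δ ≠ 0) {n : ℕ} (hn : n ≠ 0) {c d : K}
    (hQ : W.toAffine.Nonsingular c d) : ∃ P : W.toAffine.Point, n • P = Point.some c d hQ := by
  have hN : 0 < n ^ 2 := by positivity
  have hmon : (W.Φ n - C c * W.ΨSq n).natDegree = n ^ 2 := by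
    have h1 : (W.Φ n).natDegree = n ^ 2 := by
      have := W.natDegree_Φ n
      rwa [Int.natAbs_natCast] at this
    have h2 : (C c * W.ΨSq n).natDegree < n ^ 2 := by
      have := W.natDegree_ΨSq_le n
      rw [Int.natAbs_natCast] at this
      have h3 := natDegree_C_mul_le c (W.ΨSq n)
      omega
    rw [natDegree_sub_eq_left_of_natDegree_lt (by rwa [h1]), h1]
  have hdeg : (W.Φ n - C c * W.ΨSq n).degree ≠ 0 := by
    intro h
    have := natDegree_eq_zero_iff_degree_le_zero.mpr h.le
    omega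
  obtain ⟨r, hr⟩ := IsAlgClosed.exists_root _ hdeg
  simp only [IsRoot.def, eval_sub, eval_mul, eval_C, sub_eq_zero] at hr
  obtain ⟨y, hy⟩ := exists_point_over hΔ r
  have hne : (W.ΨSq n).eval r ≠ 0 := by
    intro h0
    refine not_Φ_ΨSq_common_root hy n h0 ?_
    rw [hr, h0, mul_zero]
  rcases hP : n • Point.some r y hy with _ | ⟨x', y', h'⟩
  · exact absurd ((nsmul_eq_zero_iff hy n).mp hP) hne
  · have hX := nsmul_X_eq hy h' n hP
    rw [hr] at hX
    have hx' : x' = c := mul_right_cancel₀ hne hX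
    subst hx'
    rcases Y_eq_of_X_eq h'.1 hQ.1 rfl with h1 | h1
    · subst h1
      exact ⟨_, hP⟩
    · refine ⟨-Point.some r y hy, ?_⟩
      rw [smul_neg, hP, neg_some]
      congr 1
      rw [h1, negY_negY]

/-- multiplication by `n ≠ 0` is surjective over an algebraically closed field -/
theorem surjective_nsmul (hΔ : W.Δ ≠ 0) {n : ℕ} (hn : n ≠ 0) :
    Function.Surjective (fun P : W.toAffine.Point => n • P) := by
  rintro (_ | ⟨c, d, hQ⟩)
  · exact ⟨0, smul_zero n⟩
  · exact surjective_nsmul_aux hΔ hn hQ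

/-- **The number of `n`-torsion points** is `n ^ 2`, for `n` invertible. -/
theorem card_torsion (hΔ : W.Δ ≠ 0) {n : ℕ} (hn : (n : K) ≠ 0) :
    Nat.card {P : W.toAffine.Point // n • P = 0} = n ^ 2 := by
  have hn0 : n ≠ 0 := fun h => hn (by rw [h]; simp)
  by_cases hn1 : n = 1
  · subst hn1
    simp
  have hn2 : 2 ≤ n := by omega
  obtain ⟨c, hc1, hc2⟩ := exists_good hΔ hn2 hn
  obtain ⟨d, hQ⟩ := exists_point_over hΔ c
  obtain ⟨P₀, hP₀⟩ := surjective_nsmul_aux hΔ hn0 hQ
  rw [← card_fiber_eq_card_ker n P₀ _ hP₀]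
  -- the polynomial whose roots are the `x`-coordinates
  let F := W.Φ n - C c * W.ΨSq n
  have hFdeg : F.natDegree = n ^ 2 := by
    have h1 : (W.Φ n).natDegree = n ^ 2 := by
      have := W.natDegree_Φ n
      rwa [Int.natAbs_natCast] at this
    have h2 : (C c * W.ΨSq n).natDegree < n ^ 2 := by
      have := W.natDegree_ΨSq_le n
      rw [Int.natAbs_natCast] at this
      have h3 := natDegree_C_mul_le c (W.ΨSq n)
      have hN : 0 < n ^ 2 := by positivity
      omega
    rw [natDegree_sub_eq_left_of_natDegree_lt (by rwa [h1]), h1]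
  have hF0 : F ≠ 0 := by
    intro h
    rw [h, natDegree_zero] at hFdeg
    have hN : 0 < n ^ 2 := by positivity
    omega
  have hroot : ∀ r : K, F.IsRoot r ↔ (W.Φ n).eval r = c * (W.ΨSq n).eval r := by
    intro r
    simp only [F, IsRoot.def, eval_sub, eval_mul, eval_C, sub_eq_zero]
  have hsep : F.Separable := by
    rw [Polynomial.Separable, isCoprime_iff_aeval_ne_zero_of_isAlgClosed (k := K) K]
    intro r
    by_contra! h
    obtain ⟨h1, h2⟩ := h
    have h1' := (hroot r).mp (by simpa [IsRoot.def] using h1)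
    apply hc2 r h1'
    simp only [F, coe_aeval_eq_eval, derivative_sub, derivative_mul, derivative_C, zero_mul,
      zero_add, eval_sub, eval_mul, eval_C, sub_eq_zero] at h2
    exact h2
  have hcard : F.roots.toFinset.card = n ^ 2 := by
    rw [Multiset.toFinset_card_of_nodup (nodup_roots hsep),
      ← (IsAlgClosed.splits F).natDegree_eq_card_roots, hFdeg]
  have hΨne : ∀ r : K, F.IsRoot r → (W.ΨSq n).eval r ≠ 0 := by
    intro r hr h0
    obtain ⟨y, hy⟩ := exists_point_over hΔ r
    refine not_Φ_ΨSq_common_root hy n h0 ?_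
    rw [(hroot r).mp hr, h0, mul_zero]
  have hQneg : Point.some c d hQ ≠ -Point.some c d hQ := by
    intro h
    apply hc1
    rw [neg_some] at h
    injection h with h1 h2
    rw [← psi2_sq hQ.1]
    rw [negY] at h2
    have : 2 * d + W.a₁ * c + W.a₃ = 0 := by linear_combination h2
    rw [this]; ring
  -- the bijection
  have hX : ∀ (x y : K) (h : W.toAffine.Nonsingular x y),
      n • Point.some x y h = Point.some c d hQ → x ∈ F.roots.toFinset := by
    intro x y h he
    rw [Multiset.mem_toFinset, mem_roots hF0, hroot]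
    exact (nsmul_X_eq h hQ n he).symm
  let f : {R : W.toAffine.Point // n • R = Point.some c d hQ} → F.roots.toFinset := fun R =>
    match R with
    | ⟨.zero, hR⟩ => absurd hR.symm (by
        rw [← zero_def, smul_zero]; exact some_ne_zero _)
    | ⟨.some x y h, hR⟩ => ⟨x, hX x y h hR⟩
  have hf : Function.Bijective f := by
    constructor
    · rintro ⟨_ | ⟨x₁, y₁, h₁⟩, e₁⟩ ⟨_ | ⟨x₂, y₂, h₂⟩, e₂⟩ he
      · rfl
      · exact absurd e₁.symm (by rw [← zero_def, smul_zero]; exact some_ne_zero _)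
      · exact absurd e₂.symm (by rw [← zero_def, smul_zero]; exact some_ne_zero _)
      · have hx : x₁ = x₂ := congrArg Subtype.val he
        subst hx
        rcases Y_eq_of_X_eq h₁.1 h₂.1 rfl with h3 | h3
        · subst h3; rfl
        · exfalso
          apply hQneg
          have h4 : Point.some x₁ y₁ h₁ = -Point.some x₁ y₂ h₂ := by
            rw [neg_some]; congr 1
          rw [h4, smul_neg, e₂] at e₁
          exact e₁.symm
    · rintro ⟨r, hr⟩
      have hr' : F.IsRoot r := by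
        rw [Multiset.mem_toFinset, mem_roots hF0] at hr
        exact hr
      obtain ⟨y, hy⟩ := exists_point_over hΔ r
      have hne := hΨne r hr'
      rcases hP : n • Point.some r y hy with _ | ⟨x', y', h'⟩
      · exact absurd ((nsmul_eq_zero_iff hy n).mp hP) hne
      · have hX := nsmul_X_eq hy h' n hP
        rw [(hroot r).mp hr'] at hX
        have hx' : x' = c := mul_right_cancel₀ hne hX
        subst hx'
        rcases Y_eq_of_X_eq h'.1 hQ.1 rfl with h1 | h1
        · subst h1
          exact ⟨⟨_, hP⟩, rfl⟩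
        · have h5 : n • Point.some r (W.toAffine.negY r y) ((nonsingular_neg ..).mpr hy) =
              Point.some x' d hQ := by
            rw [← neg_some hy, smul_neg, hP, neg_some]
            congr 1
            rw [h1, negY_negY]
          exact ⟨⟨_, h5⟩, rfl⟩
  rw [Nat.card_congr (Equiv.ofBijective f hf), Nat.card_eq_fintype_card, Fintype.card_coe, hcard]

theorem finite_torsion (hΔ : W.Δ ≠ 0) {n : ℕ} (hn : (n : K) ≠ 0) :
    Finite {P : W.toAffine.Point // n • P = 0} := by
  apply Nat.finite_of_card_ne_zero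
  rw [card_torsion hΔ hn]
  have hn0 : n ≠ 0 := fun h => hn (by rw [h]; simp)
  positivity

end Fermat.Agent.Torsion
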