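import Mathlib
import Fermat.Agent.Torsion.Card
import Fermat.Prelude.Def_GaloisRep_Residual
import Fermat.Prelude.Def_FLTPrelim_ModularRep

set_option autoImplicit false

/-!
# The `n`-torsion of an elliptic curve over `ℚ`: cardinality and finite level
-/

namespace Fermat.Agent.Torsion

open WeierstrassCurve WeierstrassCurve.Affine WeierstrassCurve.Affine.Point
open scoped WeierstrassCurve.Affine

section General

variable {k K : Type*} [Field k] [Field K] [Algebra k K] [DecidableEq K]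

omit [DecidableEq K] in
lemma baseChange_Δ_ne_zero {W : WeierstrassCurve k} (hΔ : W.Δ ≠ 0) : (W⁄K).Δ ≠ 0 := by
  have : (W⁄K).Δ = algebraMap k K W.Δ := WeierstrassCurve.map_Δ W (algebraMap k K)
  rw [this]
  exact fun h => hΔ ((map_eq_zero (algebraMap k K)).mp h)

lemma mem_torsionBy_nat_iff {G : Type*} [AddCommGroup G] (n : ℕ) (P : G) :
    P ∈ Submodule.torsionBy ℤ G (n : ℤ) ↔ n • P = 0 := by
  rw [Submodule.mem_torsionBy_iff]
  exact ⟨fun h => by rw [← h]; exact (natCast_zsmul P n).symm,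
    fun h => by rw [← h]; exact (natCast_zsmul P n)⟩

/-- `#E[n] = n ^ 2` in the frozen form. -/
theorem card_torsionBy [IsAlgClosed K] {W : WeierstrassCurve k} (hΔ : W.Δ ≠ 0) {n : ℕ}
    (hn : (n : K) ≠ 0) :
    Nat.card (Submodule.torsionBy ℤ (W⁄K).Point n) = n ^ 2 := by
  rw [← card_torsion (W := W⁄K) (baseChange_Δ_ne_zero hΔ) hn]
  exact Nat.card_congr (Equiv.subtypeEquivRight (fun P => mem_torsionBy_nat_iff n P))

theorem finite_torsionBy [IsAlgClosed K] {W : WeierstrassCurve k} (hΔ : W.Δ ≠ 0) {n : ℕ}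
    (hn : (n : K) ≠ 0) :
    Finite (Submodule.torsionBy ℤ (W⁄K).Point n) := by
  apply Nat.finite_of_card_ne_zero
  rw [card_torsionBy hΔ hn]
  have hn0 : n ≠ 0 := fun h => hn (by rw [h]; simp)
  positivity

end General

/-- `#E[n] = n ^ 2` over `ℚ̄`. -/
theorem card_torsionBy_rat {W : WeierstrassCurve ℚ} (hΔ : W.Δ ≠ 0) {n : ℕ} (hn : n ≠ 0) :
    Nat.card (Submodule.torsionBy ℤ (W⁄(AlgebraicClosure ℚ)).Point n) = n ^ 2 :=
  card_torsionBy hΔ (by exact_mod_cast hn)

theorem finite_torsionBy_rat {W : WeierstrassCurve ℚ} (hΔ : W.Δ ≠ 0) {n : ℕ} (hn : n ≠ 0) :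
    Finite (Submodule.torsionBy ℤ (W⁄(AlgebraicClosure ℚ)).Point n) :=
  finite_torsionBy hΔ (by exact_mod_cast hn)

/-- The set of coordinates of the torsion points. -/
def torsionCoords (W : WeierstrassCurve ℚ) (n : ℕ) : Set (AlgebraicClosure ℚ) :=
  {z | ∃ (x y : AlgebraicClosure ℚ) (h : (W⁄(AlgebraicClosure ℚ)).Nonsingular x y),
    Point.some x y h ∈ Submodule.torsionBy ℤ (W⁄(AlgebraicClosure ℚ)).Point (n : ℤ) ∧
      (z = x ∨ z = y)}

/-- the `x`-coordinate (junk value `0` at infinity) -/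
def xOf {F : Type*} [Field F] {W : Affine F} : W.Point → F
  | .zero => 0
  | .some x _ _ => x

/-- the `y`-coordinate (junk value `0` at infinity) -/
def yOf {F : Type*} [Field F] {W : Affine F} : W.Point → F
  | .zero => 0
  | .some _ y _ => y

lemma finite_torsionCoords {W : WeierstrassCurve ℚ} (hΔ : W.Δ ≠ 0) {n : ℕ} (hn : n ≠ 0) :
    (torsionCoords W n).Finite := by
  have := finite_torsionBy_rat hΔ hn
  have h1 : (Set.range (fun P : Submodule.torsionBy ℤ (W⁄(AlgebraicClosure ℚ)).Point n =>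
      xOf (P : (W⁄(AlgebraicClosure ℚ)).Point))).Finite := Set.finite_range _
  have h2 : (Set.range (fun P : Submodule.torsionBy ℤ (W⁄(AlgebraicClosure ℚ)).Point n =>
      yOf (P : (W⁄(AlgebraicClosure ℚ)).Point))).Finite := Set.finite_range _
  refine (h1.union h2).subset ?_
  rintro z ⟨x, y, h, hP, rfl | rfl⟩
  · exact Or.inl ⟨⟨_, hP⟩, rfl⟩
  · exact Or.inr ⟨⟨_, hP⟩, rfl⟩

/-- The mod-`n` representation factors through a finite level. -/
theorem galoisRep_factors {W : WeierstrassCurve ℚ} (hΔ : W.Δ ≠ 0) {n : ℕ} (hn : n ≠ 0) :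
    GaloisFactorsThroughFiniteLevel
      (galoisRepModuleEnd (K := AlgebraicClosure ℚ) ℚ W n) := by
  refine ⟨IntermediateField.adjoin ℚ (torsionCoords W n), ?_, ?_⟩
  · have := (finite_torsionCoords hΔ hn).to_subtype
    exact IntermediateField.finiteDimensional_adjoin
      (fun x _ => ((AlgebraicClosure.isAlgebraic ℚ).isAlgebraic x).isIntegral)
  · intro σ hσ
    refine LinearMap.ext fun ⟨P, hP⟩ => ?_
    rw [galoisRepModuleEnd_apply, Module.End.one_apply]
    apply Subtype.ext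
    rcases P with _ | ⟨x, y, h⟩
    · rfl
    · have hx : σ x = x := hσ x (IntermediateField.subset_adjoin ℚ _ ⟨x, y, h, hP, Or.inl rfl⟩)
      have hy : σ y = y := hσ y (IntermediateField.subset_adjoin ℚ _ ⟨x, y, h, hP, Or.inr rfl⟩)
      change Point.map σ.toAlgHom (Point.some x y h) = Point.some x y h
      rw [map_some]
      congr 1

end Fermat.Agent.Torsion
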